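/-
Programme AV (S26/S27), brick FACT-i (helper7), file 2/4: **the local ring `K⟦x_i : i ∈ σ⟧`**
(`K` a field, `σ` finite): its maximal ideal is `(x_i : i ∈ σ) = {f | f(0) = 0}`, it is complete for
its maximal ideal, and its residue field is `K`.

* `mem_span_range_X_iff`   : `f ∈ (x_i)_i ↔ constantCoeff f = 0`            (any comm. ring `R`);
* `maximalIdeal_eq`        : `𝔪 = span (range X)`;
* `mem_maximalIdeal_iff`   : `f ∈ 𝔪 ↔ constantCoeff f = 0`;
* `isAdicComplete_maximalIdeal` : instance `IsAdicComplete 𝔪 (MvPowerSeries σ K)`;
* `residue_eq_zero_iff`, `residueEquiv : ResidueField (MvPowerSeries σ K) ≃+* K`.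

Mathlib only.
-/
import Mathlib

set_option autoImplicit false
set_option linter.unusedSectionVars false

noncomputable section

namespace Fermat.Agent.AV.Fact7

open MvPowerSeries

section Span

variable {σ : Type*} [Finite σ] {R : Type*} [CommRing R]

/-- A power series in finitely many variables without constant term lies in the ideal generated by
the variables. -/
theorem mem_span_range_X_of_constantCoeff_eq_zero {f : MvPowerSeries σ R}
    (hf : constantCoeff f = 0) :
    f ∈ Ideal.span (Set.range (X : σ → MvPowerSeries σ R)) := by
  classical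
  have := Fintype.ofFinite σ
  -- the "chosen variable" of a nonzero exponent
  have hex : ∀ d : σ →₀ ℕ, d ≠ 0 → ∃ i, d i ≠ 0 := by
    intro d hd
    by_contra h
    push Not at h
    exact hd (Finsupp.ext h)
  let c : (σ →₀ ℕ) → Option σ := fun d =>
    if h : d = 0 then none else some (hex d h).choose
  have hc_mem : ∀ d i, c d = some i → d i ≠ 0 := by
    intro d i h
    by_cases hd : d = 0
    · simp only [c, dif_pos hd] at h
      exact absurd h (by simp)
    · simp only [c, dif_neg hd, Option.some.injEq] at h
      rw [← h]
      exact (hex d hd).choose_spec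
  have hc_ne : ∀ d, d ≠ 0 → ∃ i, c d = some i := by
    intro d hd
    exact ⟨(hex d hd).choose, by simp only [c, dif_neg hd]⟩
  -- the cofactors
  let g : σ → MvPowerSeries σ R := fun i e =>
    if c (e + Finsupp.single i 1) = some i then coeff (e + Finsupp.single i 1) f else 0
  have key : f = ∑ i, X i * g i := by
    ext d
    rw [map_sum]
    have hterm : ∀ i, coeff d (X i * g i) = if c d = some i then coeff d f else 0 := by
      intro i
      rw [X_def, coeff_monomial_mul]
      simp only [one_mul]
      by_cases hi : Finsupp.single i 1 ≤ d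
      · rw [if_pos hi]
        have : d - Finsupp.single i 1 + Finsupp.single i 1 = d := tsub_add_cancel_of_le hi
        show (if c (d - Finsupp.single i 1 + Finsupp.single i 1) = some i then
          coeff (d - Finsupp.single i 1 + Finsupp.single i 1) f else 0) = _
        rw [this]
      · rw [if_neg hi, if_neg]
        intro h
        apply hi
        have := hc_mem d i h
        rw [Finsupp.single_le_iff]
        exact Nat.one_le_iff_ne_zero.mpr this
    simp_rw [hterm]
    by_cases hd : d = 0
    · subst hd
      rw [coeff_zero_eq_constantCoeff_apply, hf]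
      symm
      apply Finset.sum_eq_zero
      intro i _
      rw [if_neg]
      intro h
      exact hc_mem 0 i h rfl
    · obtain ⟨i₀, hi₀⟩ := hc_ne d hd
      rw [Finset.sum_eq_single i₀]
      · rw [if_pos hi₀]
      · intro j _ hj
        rw [if_neg]
        rw [hi₀]
        intro h
        exact hj (Option.some.inj h).symm
      · intro h
        exact absurd (Finset.mem_univ _) h
  rw [key]
  refine Ideal.sum_mem _ fun i _ => Ideal.mul_mem_right _ _ (Ideal.subset_span ⟨i, rfl⟩)

theorem mem_span_range_X_iff {f : MvPowerSeries σ R} :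
    f ∈ Ideal.span (Set.range (X : σ → MvPowerSeries σ R)) ↔ constantCoeff f = 0 := by
  refine ⟨fun h => ?_, mem_span_range_X_of_constantCoeff_eq_zero⟩
  have hle : Ideal.span (Set.range (X : σ → MvPowerSeries σ R)) ≤
      RingHom.ker (constantCoeff (σ := σ) (R := R)) := by
    rw [Ideal.span_le]
    rintro _ ⟨i, rfl⟩
    simp [RingHom.mem_ker]
  exact hle h

end Span

section Field

variable {σ : Type*} [Finite σ] {K : Type*} [Field K]

theorem mem_maximalIdeal_iff {f : MvPowerSeries σ K} :
    f ∈ IsLocalRing.maximalIdeal (MvPowerSeries σ K) ↔ constantCoeff f = 0 := by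
  rw [IsLocalRing.mem_maximalIdeal, mem_nonunits_iff, MvPowerSeries.isUnit_iff_constantCoeff,
    isUnit_iff_ne_zero, not_not]

/-- The maximal ideal of `K⟦x_i : i ∈ σ⟧` is generated by the variables. -/
theorem maximalIdeal_eq :
    IsLocalRing.maximalIdeal (MvPowerSeries σ K) =
      Ideal.span (Set.range (X : σ → MvPowerSeries σ K)) := by
  ext f
  rw [mem_maximalIdeal_iff, mem_span_range_X_iff]

/-- `K⟦x_i : i ∈ σ⟧` is complete for its maximal ideal. -/
instance isAdicComplete_maximalIdeal :
    IsAdicComplete (IsLocalRing.maximalIdeal (MvPowerSeries σ K)) (MvPowerSeries σ K) := by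
  rw [maximalIdeal_eq]
  infer_instance

theorem residue_eq_zero_iff {f : MvPowerSeries σ K} :
    IsLocalRing.residue (MvPowerSeries σ K) f = 0 ↔ constantCoeff f = 0 := by
  rw [IsLocalRing.residue_eq_zero_iff, mem_maximalIdeal_iff]

end Field

end Fermat.Agent.AV.Fact7
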