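/-
Programme AV (S26/S27), brick FACT-i (helper7), file 3/4: **linear changes of coordinates of
`K⟦x₀,…,x_n⟧` making a given nonzero series regular in `x₀`** (`K` an infinite field).

* `axisEval K n : K⟦x₀,…,x_n⟧ →+* K⟦T⟧` : restriction to the `x₀`-axis (`x₀ ↦ T`, `x_{j+1} ↦ 0`);
  `coeff_axisEval : coeff m (axisEval G) = coeff (single 0 m) G`;
* `linFam w` (`w : Fin (n+1) → K`) : the linear family `x₀ ↦ w₀ x₀`, `x_{j+1} ↦ x_{j+1} + w_{j+1} x₀`;
  `linAut w hw` (`hw : w 0 ≠ 0`) : the ring automorphism `F ↦ F(linFam w)` of `K⟦x₀,…,x_n⟧`;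
* `coeff_single_zero_subst_linFam` : the coefficient of `x₀^m` in `F(linFam w)` is
  `Σ_{|d| = m} coeff d F · w^d`;
* `exists_regular` : for `F ≠ 0` there are `w` with `w 0 ≠ 0` and `m` such that the coefficient of
  `x₀^m` in `F(linFam w)` is nonzero;
* `map_residue_finSuccEquiv_ne_zero` : then the image of `F(linFam w)` in `A⟦X⟧`,
  `A = K⟦x₁,…,x_n⟧`, is `X`-regular (nonzero modulo `𝔪_A`).

Mathlib only (+ `MaxIdeal`).
-/
import Mathlib
import Fermat.Agent.AV.Fact7.MaxIdeal

set_option autoImplicit false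
set_option linter.unusedSectionVars false

noncomputable section

namespace Fermat.Agent.AV.Fact7

open MvPowerSeries

variable {K : Type*} [Field K] {n : ℕ}

/-! ### restriction to the `x₀`-axis -/

variable (K n) in
/-- Restriction to the `x₀`-axis: `x₀ ↦ T`, `x_{j+1} ↦ 0`. -/
def axisEval : MvPowerSeries (Fin (n + 1)) K →+* PowerSeries K :=
  (PowerSeries.map (constantCoeff (σ := Fin n) (R := K))).comp
    ((finSuccEquiv K n : MvPowerSeries (Fin (n + 1)) K ≃ₐ[K] _) : _ →+* _)

theorem cons_zero_eq_single (m : ℕ) :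
    (Finsupp.cons m (0 : Fin n →₀ ℕ)) = Finsupp.single 0 m := by
  ext i
  refine Fin.cases ?_ (fun j => ?_) i
  · simp
  · simp

theorem coeff_axisEval (G : MvPowerSeries (Fin (n + 1)) K) (m : ℕ) :
    PowerSeries.coeff m (axisEval K n G) = coeff (Finsupp.single 0 m) G := by
  unfold axisEval
  rw [RingHom.comp_apply, PowerSeries.coeff_map, ← coeff_zero_eq_constantCoeff_apply]
  show coeff 0 (PowerSeries.coeff m (finSuccEquiv K n G)) = _
  rw [coeff_coeff_finSuccEquiv, cons_zero_eq_single]

@[simp] theorem axisEval_X_zero : axisEval K n (X 0) = PowerSeries.X := by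
  unfold axisEval
  rw [RingHom.comp_apply]
  show PowerSeries.map _ (finSuccEquiv K n (X 0)) = _
  rw [finSuccEquiv_X_zero, PowerSeries.map_X]

@[simp] theorem axisEval_X_succ (j : Fin n) : axisEval K n (X j.succ) = 0 := by
  unfold axisEval
  rw [RingHom.comp_apply]
  show PowerSeries.map _ (finSuccEquiv K n (X j.succ)) = _
  rw [finSuccEquiv_X_succ, PowerSeries.map_C, constantCoeff_X, map_zero]

@[simp] theorem axisEval_C (r : K) : axisEval K n (C r) = PowerSeries.C r := by
  unfold axisEval
  rw [RingHom.comp_apply]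
  show PowerSeries.map _ (finSuccEquiv K n (C r)) = _
  rw [finSuccEquiv_C, PowerSeries.map_C, constantCoeff_C]

/-! ### the linear families -/

/-- The linear family `x₀ ↦ w₀ x₀`, `x_{j+1} ↦ x_{j+1} + w_{j+1} x₀`. -/
def linFam (w : Fin (n + 1) → K) : Fin (n + 1) → MvPowerSeries (Fin (n + 1)) K :=
  Fin.cases (C (w 0) * X 0) (fun j => X j.succ + C (w j.succ) * X 0)

@[simp] theorem linFam_zero (w : Fin (n + 1) → K) : linFam w 0 = C (w 0) * X 0 := rfl

@[simp] theorem linFam_succ (w : Fin (n + 1) → K) (j : Fin n) :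
    linFam w j.succ = X j.succ + C (w j.succ) * X 0 := rfl

theorem constantCoeff_linFam (w : Fin (n + 1) → K) (s : Fin (n + 1)) :
    constantCoeff (linFam w s) = 0 := by
  refine Fin.cases ?_ (fun j => ?_) s <;> simp

theorem hasSubst_linFam (w : Fin (n + 1) → K) : HasSubst (linFam w) :=
  hasSubst_of_constantCoeff_zero (constantCoeff_linFam w)

theorem axisEval_linFam (w : Fin (n + 1) → K) (s : Fin (n + 1)) :
    axisEval K n (linFam w s) = PowerSeries.C (w s) * PowerSeries.X := by
  refine Fin.cases ?_ (fun j => ?_) s <;> simp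

/-- The weights of the composite of two linear families. -/
def compW (w w' : Fin (n + 1) → K) : Fin (n + 1) → K :=
  Fin.cases (w' 0 * w 0) (fun j => w j.succ + w' j.succ * w 0)

@[simp] theorem compW_zero (w w' : Fin (n + 1) → K) : compW w w' 0 = w' 0 * w 0 := rfl

@[simp] theorem compW_succ (w w' : Fin (n + 1) → K) (j : Fin n) :
    compW w w' j.succ = w j.succ + w' j.succ * w 0 := rfl

theorem subst_C_mul_X (w : Fin (n + 1) → K) (r : K) (s : Fin (n + 1)) :
    subst (linFam w) (C r * X s : MvPowerSeries (Fin (n + 1)) K) = C r * linFam w s := by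
  rw [← smul_eq_C_mul, subst_smul (hasSubst_linFam w), subst_X (hasSubst_linFam w),
    smul_eq_C_mul]

theorem subst_linFam_linFam (w w' : Fin (n + 1) → K) (s : Fin (n + 1)) :
    subst (linFam w) (linFam w' s) = linFam (compW w w') s := by
  refine Fin.cases ?_ (fun j => ?_) s
  · rw [linFam_zero, subst_C_mul_X, linFam_zero, linFam_zero, compW_zero, map_mul]
    ring
  · rw [linFam_succ, subst_add (hasSubst_linFam w), subst_X (hasSubst_linFam w), subst_C_mul_X,
      linFam_succ, linFam_zero, linFam_succ, compW_succ, map_add, map_mul]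
    ring

/-- The identity weights. -/
def oneW : Fin (n + 1) → K := Fin.cases 1 (fun _ => 0)

theorem linFam_oneW : linFam (oneW : Fin (n + 1) → K) = X := by
  funext s
  refine Fin.cases ?_ (fun j => ?_) s
  · simp [oneW]
  · simp [oneW]

/-- The inverse weights. -/
def invW (w : Fin (n + 1) → K) : Fin (n + 1) → K :=
  Fin.cases (w 0)⁻¹ (fun j => -(w j.succ * (w 0)⁻¹))

theorem compW_invW (w : Fin (n + 1) → K) (hw : w 0 ≠ 0) : compW w (invW w) = oneW := by
  funext s
  refine Fin.cases ?_ (fun j => ?_) s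
  · simp [invW, oneW, hw]
  · simp only [compW_succ, invW, oneW, Fin.cases_succ]
    field_simp
    ring

theorem compW_invW' (w : Fin (n + 1) → K) (hw : w 0 ≠ 0) : compW (invW w) w = oneW := by
  funext s
  refine Fin.cases ?_ (fun j => ?_) s
  · simp [invW, oneW, hw]
  · simp only [compW_succ, invW, oneW, Fin.cases_succ, Fin.cases_zero]
    ring

theorem subst_linFam_subst_linFam (w w' : Fin (n + 1) → K)
    (F : MvPowerSeries (Fin (n + 1)) K) :
    subst (linFam w) (subst (linFam w') F) = subst (linFam (compW w w')) F := by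
  rw [subst_comp_subst_apply (hasSubst_linFam w') (hasSubst_linFam w)]
  congr 1
  funext s
  exact subst_linFam_linFam w w' s

theorem subst_linFam_of_eq_oneW {w : Fin (n + 1) → K} (hw : w = oneW)
    (F : MvPowerSeries (Fin (n + 1)) K) : subst (linFam w) F = F := by
  rw [hw, linFam_oneW, subst_self]
  rfl

/-- The ring automorphism `F ↦ F(linFam w)` of `K⟦x₀,…,x_n⟧`, for `w 0 ≠ 0`. -/
def linAut (w : Fin (n + 1) → K) (hw : w 0 ≠ 0) :
    MvPowerSeries (Fin (n + 1)) K ≃+* MvPowerSeries (Fin (n + 1)) K :=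
  RingEquiv.ofRingHom
    ((substAlgHom (hasSubst_linFam w) : MvPowerSeries (Fin (n + 1)) K →ₐ[K] _) : _ →+* _)
    ((substAlgHom (hasSubst_linFam (invW w)) : MvPowerSeries (Fin (n + 1)) K →ₐ[K] _) : _ →+* _)
    (RingHom.ext fun F => by
      show substAlgHom (hasSubst_linFam w) (substAlgHom (hasSubst_linFam (invW w)) F) = F
      rw [substAlgHom_apply, substAlgHom_apply, subst_linFam_subst_linFam]
      exact subst_linFam_of_eq_oneW (compW_invW w hw) F)
    (RingHom.ext fun F => by
      show substAlgHom (hasSubst_linFam (invW w)) (substAlgHom (hasSubst_linFam w) F) = F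
      rw [substAlgHom_apply, substAlgHom_apply, subst_linFam_subst_linFam]
      exact subst_linFam_of_eq_oneW (compW_invW' w hw) F)

@[simp] theorem linAut_apply (w : Fin (n + 1) → K) (hw : w 0 ≠ 0)
    (F : MvPowerSeries (Fin (n + 1)) K) : linAut w hw F = subst (linFam w) F := by
  show substAlgHom (hasSubst_linFam w) F = _
  rw [substAlgHom_apply]

/-! ### the coefficient of `x₀^m` -/

theorem axisEval_prod_linFam (w : Fin (n + 1) → K) (d : Fin (n + 1) →₀ ℕ) :
    axisEval K n (d.prod fun s k => linFam w s ^ k) =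
      PowerSeries.C (d.prod fun s k => w s ^ k) * PowerSeries.X ^ d.degree := by
  rw [map_finsuppProd]
  simp_rw [map_pow, axisEval_linFam, mul_pow, ← map_pow]
  rw [Finsupp.prod_mul, map_finsuppProd]
  congr 1
  rw [Finsupp.prod, Finset.prod_pow_eq_pow_sum, Finsupp.degree_apply]

theorem coeff_single_zero_prod_linFam (w : Fin (n + 1) → K) (d : Fin (n + 1) →₀ ℕ) (m : ℕ) :
    coeff (Finsupp.single 0 m) (d.prod fun s k => linFam w s ^ k) =
      if d.degree = m then d.prod (fun s k => w s ^ k) else 0 := by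
  rw [← coeff_axisEval, axisEval_prod_linFam, PowerSeries.coeff_C_mul_X_pow]
  by_cases h : d.degree = m
  · rw [if_pos h, if_pos h.symm]
  · rw [if_neg h, if_neg (fun h' => h h'.symm)]

/-- The coefficient of `x₀^m` in `F(linFam w)`. -/
theorem coeff_single_zero_subst_linFam (w : Fin (n + 1) → K)
    (F : MvPowerSeries (Fin (n + 1)) K) (m : ℕ) :
    coeff (Finsupp.single 0 m) (subst (linFam w) F) =
      finsum fun d : Fin (n + 1) →₀ ℕ =>
        coeff d F * (if d.degree = m then d.prod (fun s k => w s ^ k) else 0) := by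
  rw [coeff_subst (hasSubst_linFam w)]
  refine finsum_congr fun d => ?_
  rw [smul_eq_mul, coeff_single_zero_prod_linFam]

/-! ### regularisation -/

variable [Infinite K]

/-- For `F ≠ 0` there is a linear change of coordinates `w` (with `w 0 ≠ 0`) such that `F(linFam w)`
has a nonzero pure `x₀`-power coefficient. -/
theorem exists_regular {F : MvPowerSeries (Fin (n + 1)) K} (hF : F ≠ 0) :
    ∃ w : Fin (n + 1) → K, w 0 ≠ 0 ∧
      ∃ m : ℕ, coeff (Finsupp.single 0 m) (subst (linFam w) F) ≠ 0 := by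
  classical
  obtain ⟨d₀, hd₀⟩ : ∃ d₀, coeff d₀ F ≠ 0 := by
    by_contra h
    push Not at h
    exact hF (MvPowerSeries.ext fun d => by rw [h d, map_zero])
  set m := d₀.degree with hm
  set S : Finset (Fin (n + 1) →₀ ℕ) := (Finset.univ : Finset (Fin (n + 1))).finsuppAntidiag m
    with hS
  have hmemS : ∀ d : Fin (n + 1) →₀ ℕ, d ∈ S ↔ d.degree = m := by
    intro d
    rw [hS, Finset.mem_finsuppAntidiag, Finsupp.degree_eq_sum]
    exact ⟨fun h => h.1, fun h => ⟨h, Finset.subset_univ _⟩⟩
  set p : MvPolynomial (Fin (n + 1)) K := ∑ d ∈ S, MvPolynomial.monomial d (coeff d F) with hp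
  have hpcoeff : MvPolynomial.coeff d₀ p = coeff d₀ F := by
    rw [hp, MvPolynomial.coeff_sum]
    simp_rw [MvPolynomial.coeff_monomial]
    rw [Finset.sum_ite_eq' S d₀, if_pos ((hmemS d₀).mpr rfl)]
  have hp0 : p ≠ 0 := by
    intro h
    rw [h, MvPolynomial.coeff_zero] at hpcoeff
    exact hd₀ hpcoeff.symm
  have hq0 : p * MvPolynomial.X 0 ≠ 0 := mul_ne_zero hp0 (MvPolynomial.X_ne_zero _)
  obtain ⟨w, hw⟩ : ∃ w : Fin (n + 1) → K, MvPolynomial.eval w (p * MvPolynomial.X 0) ≠ 0 := by
    by_contra h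
    push Not at h
    exact hq0 (MvPolynomial.funext fun w => by rw [h w, map_zero])
  rw [map_mul, MvPolynomial.eval_X] at hw
  have hw0 : w 0 ≠ 0 := right_ne_zero_of_mul hw
  have hwp : MvPolynomial.eval w p ≠ 0 := left_ne_zero_of_mul hw
  refine ⟨w, hw0, m, ?_⟩
  rw [coeff_single_zero_subst_linFam]
  have hsupp : (Function.support fun d : Fin (n + 1) →₀ ℕ =>
      coeff d F * (if d.degree = m then d.prod (fun s k => w s ^ k) else 0)) ⊆ ↑S := by
    intro d hd
    rw [Function.mem_support] at hd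
    rw [Finset.mem_coe, hmemS]
    by_contra hne
    exact hd (by rw [if_neg hne, mul_zero])
  rw [finsum_eq_sum_of_support_subset _ hsupp]
  have heval : MvPolynomial.eval w p = ∑ d ∈ S, coeff d F * d.prod (fun s k => w s ^ k) := by
    rw [hp, map_sum]
    refine Finset.sum_congr rfl fun d _ => ?_
    rw [MvPolynomial.eval_monomial]
  rw [heval] at hwp
  convert hwp using 1
  refine Finset.sum_congr rfl fun d hd => ?_
  rw [if_pos ((hmemS d).mp hd)]

omit [Infinite K] in
/-- A series with a nonzero pure `x₀`-power coefficient is `X`-regular in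
`A⟦X⟧`, `A = K⟦x₁,…,x_n⟧`. -/
theorem map_residue_finSuccEquiv_ne_zero {G : MvPowerSeries (Fin (n + 1)) K} {m : ℕ}
    (h : coeff (Finsupp.single 0 m) G ≠ 0) :
    (finSuccEquiv K n G).map (IsLocalRing.residue (MvPowerSeries (Fin n) K)) ≠ 0 := by
  intro h0
  have h1 := congrArg (PowerSeries.coeff m) h0
  rw [PowerSeries.coeff_map, map_zero, residue_eq_zero_iff,
    ← coeff_zero_eq_constantCoeff_apply, coeff_coeff_finSuccEquiv, cons_zero_eq_single] at h1
  exact h h1

end Fermat.Agent.AV.Fact7
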