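/-
Programme AV (S26/S27), brick FACT-i (helper7), file 1/4: **the Weierstrass step of
"`K⟦x₁,…,x_g⟧` is a UFD"**, for an abstract complete local UFD `A`.

* `exists_prime_mem_of_regular` : `A` a complete local domain which is a UFD, `𝔮` a prime ideal of
  `A⟦X⟧` containing an `X`-regular series `G` (`G mod 𝔪_A ≠ 0`): then `𝔮` contains a prime element
  of `A⟦X⟧`.  (Weierstrass preparation `G = f·h`; a prime factor `p` of the distinguished polynomial
  `f` in the UFD `A[X]` lies in `𝔮`; normalised to be monic it is distinguished, and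
  `A⟦X⟧/(p) ≃ A[X]/(p)` is a domain.)
* `ufm_of_regularizable` : Kaplansky's criterion: if moreover `B ≃+* A⟦X⟧` and every nonzero
  element of `B` becomes `X`-regular after a ring automorphism of `B`, then `B` is a UFD.

Mathlib only.
-/
import Mathlib

set_option autoImplicit false
set_option linter.unusedSectionVars false

noncomputable section

namespace Fermat.Agent.AV.Fact7

open Polynomial PowerSeries

section Weierstrass

variable {A : Type*} [CommRing A] [IsDomain A] [IsLocalRing A]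

/-- A monic divisor of a distinguished polynomial over a local domain is distinguished. -/
theorem isDistinguishedAt_of_monic_of_dvd {f p : A[X]}
    (hf : f.IsDistinguishedAt (IsLocalRing.maximalIdeal A)) (hp : p.Monic) (hpf : p ∣ f) :
    p.IsDistinguishedAt (IsLocalRing.maximalIdeal A) := by
  set 𝔪 := IsLocalRing.maximalIdeal A with h𝔪
  have hdvd : p.map (Ideal.Quotient.mk 𝔪) ∣ (Polynomial.X : (A ⧸ 𝔪)[X]) ^ f.natDegree := by
    rw [← hf.map_eq_X_pow]
    exact Polynomial.map_dvd _ hpf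
  obtain ⟨i, -, hi⟩ := (dvd_prime_pow Polynomial.prime_X _).mp hdvd
  have hmap : p.map (Ideal.Quotient.mk 𝔪) = Polynomial.X ^ i :=
    Polynomial.eq_of_monic_of_associated (hp.map _) (Polynomial.monic_X_pow i) hi
  have hdeg : p.natDegree = i := by
    rw [← hp.natDegree_map (Ideal.Quotient.mk 𝔪), hmap, Polynomial.natDegree_X_pow]
  refine ⟨⟨fun {n} hn => ?_⟩, hp⟩
  have h1 : (p.map (Ideal.Quotient.mk 𝔪)).coeff n = 0 := by
    rw [hmap, Polynomial.coeff_X_pow, if_neg]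
    rw [hdeg] at hn
    exact hn.ne
  rw [Polynomial.coeff_map] at h1
  exact Ideal.Quotient.eq_zero_iff_mem.mp h1

variable [IsAdicComplete (IsLocalRing.maximalIdeal A) A]

/-- A distinguished polynomial which is prime in `A[X]` is prime in `A⟦X⟧`. -/
theorem prime_coe_of_isDistinguishedAt {p : A[X]}
    (hd : p.IsDistinguishedAt (IsLocalRing.maximalIdeal A)) (hp : Prime p) :
    Prime (p : A⟦X⟧) := by
  have hp0 : (p : A⟦X⟧) ≠ 0 := by
    intro h
    exact hp.ne_zero (Polynomial.coe_eq_zero_iff.mp h)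
  have hI : (Ideal.span {p}).IsPrime := (Ideal.span_singleton_prime hp.ne_zero).mpr hp
  have hdom : IsDomain (A[X] ⧸ Ideal.span {p}) := Ideal.Quotient.isDomain _
  have e := hd.algEquivQuotient
  have hdom' : IsDomain (A⟦X⟧ ⧸ Ideal.span {(p : A⟦X⟧)}) :=
    MulEquiv.isDomain (A[X] ⧸ Ideal.span {p}) e.symm.toMulEquiv
  have hI' : (Ideal.span {(p : A⟦X⟧)}).IsPrime := (Ideal.Quotient.isDomain_iff_prime _).mp hdom'
  exact (Ideal.span_singleton_prime hp0).mp hI'

variable [UniqueFactorizationMonoid A]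

/-- **Weierstrass step.**  A prime ideal of `A⟦X⟧` (`A` a complete local UFD) containing an
`X`-regular element contains a prime element. -/
theorem exists_prime_mem_of_regular (𝔮 : Ideal A⟦X⟧) [h𝔮 : 𝔮.IsPrime] {G : A⟦X⟧} (hG𝔮 : G ∈ 𝔮)
    (hG : G.map (IsLocalRing.residue A) ≠ 0) : ∃ x ∈ 𝔮, Prime x := by
  obtain ⟨f, h, H⟩ := G.exists_isWeierstrassFactorization hG
  have hfd := H.isDistinguishedAt
  -- `f ∈ 𝔮`
  have hf𝔮 : (f : A⟦X⟧) ∈ 𝔮 := by
    obtain ⟨u, hu⟩ := H.isUnit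
    have h1 : (f : A⟦X⟧) = G * ((u⁻¹ : A⟦X⟧ˣ) : A⟦X⟧) := by
      rw [H.eq_mul, ← hu, mul_assoc, Units.mul_inv, mul_one]
    rw [h1]
    exact 𝔮.mul_mem_right _ hG𝔮
  have hf0 : f ≠ 0 := hfd.monic.ne_zero
  obtain ⟨s, hs, hsf⟩ := UniqueFactorizationMonoid.exists_prime_factors f hf0
  -- a prime factor in `𝔮`
  have hprod : (s.map (Polynomial.coeToPowerSeries.ringHom (R := A))).prod ∈ 𝔮 := by
    rw [← map_multiset_prod]
    obtain ⟨u, hu⟩ := hsf.symm
    have h2 : s.prod = f * (u : A[X]) := hu.symm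
    rw [h2, map_mul]
    exact 𝔮.mul_mem_right _ hf𝔮
  obtain ⟨y, hy, hy𝔮⟩ := (h𝔮.multiset_prod_mem_iff_exists_mem _).mp hprod
  obtain ⟨p, hp, rfl⟩ := Multiset.mem_map.mp hy
  have hpprime : Prime p := hs p hp
  have hpf : p ∣ f := (Multiset.dvd_prod hp).trans hsf.dvd
  -- normalise `p` to be monic
  obtain ⟨r, hr⟩ := hpf
  have hlc : p.leadingCoeff * r.leadingCoeff = 1 := by
    rw [← Polynomial.leadingCoeff_mul, ← hr]
    exact hfd.monic
  set p' : A[X] := Polynomial.C r.leadingCoeff * p with hp'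
  have hp'monic : p'.Monic :=
    Polynomial.monic_C_mul_of_mul_leadingCoeff_eq_one (by rw [mul_comm]; exact hlc)
  have hunit : IsUnit (Polynomial.C r.leadingCoeff : A[X]) :=
    Polynomial.isUnit_C.mpr (IsUnit.of_mul_eq_one _ (by rw [mul_comm]; exact hlc))
  have hassoc : Associated p' p := associated_unit_mul_left _ _ hunit
  have hp'prime : Prime p' := hassoc.symm.prime hpprime
  have hp'f : p' ∣ f := hassoc.dvd.trans ⟨r, hr⟩
  have hp'd := isDistinguishedAt_of_monic_of_dvd hfd hp'monic hp'f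
  refine ⟨(p' : A⟦X⟧), ?_, prime_coe_of_isDistinguishedAt hp'd hp'prime⟩
  have h3 : (p' : A⟦X⟧) = ((Polynomial.C r.leadingCoeff : A[X]) : A⟦X⟧) * (p : A⟦X⟧) := by
    rw [hp', Polynomial.coe_mul]
  rw [h3]
  exact 𝔮.mul_mem_left _ hy𝔮

end Weierstrass

section Kaplansky

variable {A : Type*} [CommRing A] [IsDomain A] [IsLocalRing A]
  [IsAdicComplete (IsLocalRing.maximalIdeal A) A] [UniqueFactorizationMonoid A]

/-- **Kaplansky + Weierstrass.**  If `B ≃+* A⟦X⟧` (`A` a complete local UFD) and every nonzero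
element of `B` becomes `X`-regular after a ring automorphism of `B`, then `B` is a UFD. -/
theorem ufm_of_regularizable {B : Type*} [CommRing B] [IsDomain B] (Φ : B ≃+* A⟦X⟧)
    (hreg : ∀ F : B, F ≠ 0 → ∃ τ : B ≃+* B, (Φ (τ F)).map (IsLocalRing.residue A) ≠ 0) :
    UniqueFactorizationMonoid B := by
  refine UniqueFactorizationMonoid.iff_exists_prime_mem_of_isPrime.mpr fun 𝔭 h𝔭0 h𝔭 => ?_
  obtain ⟨F, hF𝔭, hF0⟩ := Submodule.exists_mem_ne_zero_of_ne_bot h𝔭0
  obtain ⟨τ, hτ⟩ := hreg F hF0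
  set Ψ : B ≃+* A⟦X⟧ := τ.trans Φ with hΨ
  have h𝔮 : (𝔭.comap (Ψ.symm : A⟦X⟧ →+* B)).IsPrime := Ideal.comap_isPrime _ _
  have hmem : Ψ F ∈ 𝔭.comap (Ψ.symm : A⟦X⟧ →+* B) := by
    rw [Ideal.mem_comap]
    simpa using hF𝔭
  obtain ⟨x, hx𝔮, hx⟩ := exists_prime_mem_of_regular (𝔭.comap (Ψ.symm : A⟦X⟧ →+* B)) hmem hτ
  refine ⟨Ψ.symm x, hx𝔮, ?_⟩
  exact (MulEquiv.prime_iff Ψ.symm).mpr hx

end Kaplansky

end Fermat.Agent.AV.Fact7
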