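/-
Programme AV (S26/S27), brick FACT-i (helper7), file 4/4: **`K⟦x₁,…,x_g⟧` is a unique factorisation
domain**, for `K` an infinite field (in particular an algebraically closed field).

* `ufm_mvPowerSeries_fin K g` : `UniqueFactorizationMonoid (MvPowerSeries (Fin g) K)`;
* `ufm_mvPowerSeries K σ`     : the same for any finite type of variables `σ`;
* `ufm_of_ringEquiv`          : transport to any ring isomorphic to `MvPowerSeries (Fin g) K`.

Proof: induction on `g` along `MvPowerSeries.finSuccEquiv : K⟦x₀,…,x_g⟧ ≃ K⟦x₁,…,x_g⟧⟦X⟧`; the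
coefficient ring `A = K⟦x₁,…,x_g⟧` is a complete local UFD (`MaxIdeal`), every nonzero series becomes
`X`-regular after a linear change of coordinates (`LinearAut`), and Weierstrass preparation +
Kaplansky's criterion conclude (`WeierstrassUFD`).

Also collected here, for the consumers (FACT-iii): the ring `MvPowerSeries σ K` (`σ` finite) is a
noetherian local domain (Mathlib instances), complete for its maximal ideal
(`isAdicComplete_maximalIdeal`), with maximal ideal generated by the variables (`maximalIdeal_eq`).
-/
import Mathlib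
import Fermat.Agent.AV.Fact7.MaxIdeal
import Fermat.Agent.AV.Fact7.WeierstrassUFD
import Fermat.Agent.AV.Fact7.LinearAut

set_option autoImplicit false
set_option linter.unusedSectionVars false

noncomputable section

namespace Fermat.Agent.AV.Fact7

open MvPowerSeries

variable (K : Type*) [Field K] [Infinite K]

/-- **`K⟦x₁,…,x_g⟧` is a UFD** (`K` an infinite field). -/
theorem ufm_mvPowerSeries_fin : ∀ g : ℕ, UniqueFactorizationMonoid (MvPowerSeries (Fin g) K)
  | 0 =>
    (MvPowerSeries.isEmptyEquiv (σ := Fin 0) (R := K)).symm.toMulEquiv.uniqueFactorizationMonoid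
      inferInstance
  | (n + 1) => by
    have := ufm_mvPowerSeries_fin n
    have : IsDomain (MvPowerSeries (Fin n) K) := NoZeroDivisors.to_isDomain _
    have : IsDomain (MvPowerSeries (Fin (n + 1)) K) := NoZeroDivisors.to_isDomain _
    refine ufm_of_regularizable (A := MvPowerSeries (Fin n) K)
      ((finSuccEquiv K n : MvPowerSeries (Fin (n + 1)) K ≃ₐ[K] _) : _ ≃+* _) fun F hF => ?_
    obtain ⟨w, hw, m, hm⟩ := exists_regular hF
    refine ⟨linAut w hw, ?_⟩
    rw [linAut_apply]
    exact map_residue_finSuccEquiv_ne_zero hm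

/-- `K⟦x_i : i ∈ σ⟧` is a UFD for every finite `σ` (`K` an infinite field). -/
theorem ufm_mvPowerSeries (σ : Type*) [Finite σ] :
    UniqueFactorizationMonoid (MvPowerSeries σ K) := by
  have := Fintype.ofFinite σ
  exact (renameEquiv K (Fintype.equivFin σ)).symm.toMulEquiv.uniqueFactorizationMonoid
    (ufm_mvPowerSeries_fin K _)

/-- Transport: a ring isomorphic to `K⟦x₁,…,x_g⟧` is a UFD. -/
theorem ufm_of_ringEquiv {R : Type*} [CommRing R] {g : ℕ} (e : R ≃+* MvPowerSeries (Fin g) K) :
    UniqueFactorizationMonoid R :=
  e.symm.toMulEquiv.uniqueFactorizationMonoid (ufm_mvPowerSeries_fin K g)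

end Fermat.Agent.AV.Fact7
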